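/-
S41 / [DUAL-IHARA] (helper86): the seam between Poincaré duality and Ribet's algebra.

Abstract input: two lattices `L`, `L'` (finite free over `ℤ`) with perfect `ℤ`-bilinear pairings
`B`, `B'`, an action of a commutative ring `𝕋` which is self-adjoint for both pairings, degeneracy
maps `α₁ α₂ : L → L'` with adjoints `β₁ β₂ : L' → L`, and Ihara's lemma in the elementwise form
(`hI` of `RibetAlg85`).  Output: `β = (β₁, β₂)` is onto `L × L` after localisation at `𝔪`
(`hII` of `RibetAlg85`), and the mod `p` form (`hDual` of `Ribet15`).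
-/
import Mathlib
import Fermat.Agent.S41.Ribet15.Core

set_option autoImplicit false

namespace Fermat.Agent.S41.PDAssembly86

/-! ### (A0) the field lemma -/

section Field

variable {K V V' : Type*} [Field K] [AddCommGroup V] [Module K V] [AddCommGroup V'] [Module K V']

/-- If `b` is adjoint to `a`, `B` is non-degenerate, every functional on `V'` is represented by
`B'`, and the self-adjoint endomorphism `s` kills `ker a`, then `s V ⊆ range b`. -/
theorem exists_preimage_of_adjoint (a : V →ₗ[K] V') (b : V' →ₗ[K] V)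
    (B : V →ₗ[K] V →ₗ[K] K) (B' : V' →ₗ[K] V' →ₗ[K] K)
    (hadj : ∀ u z, B' (a u) z = B u (b z))
    (hB : ∀ x, (∀ u, B u x = 0) → x = 0)
    (hB' : ∀ l : V' →ₗ[K] K, ∃ z, ∀ y, B' y z = l y)
    (s : V →ₗ[K] V) (hs : ∀ u v, B (s u) v = B u (s v))
    (hker : ∀ u, a u = 0 → s u = 0) (v : V) :
    ∃ z, b z = s v := by
  classical
  -- the functional `u ↦ B (s u) v` on `V` factors through `a`
  let f : V →ₗ[K] K := (B.flip v).comp s
  have hf : LinearMap.ker a ≤ LinearMap.ker f := by
    intro u hu
    rw [LinearMap.mem_ker] at hu ⊢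
    simp [f, hker u hu]
  -- functional on the range of `a`
  let g₀ : LinearMap.range a →ₗ[K] K :=
    ((LinearMap.ker a).liftQ f hf).comp (a.quotKerEquivRange.symm : _ →ₗ[K] _)
  have hg₀ : ∀ u, g₀ ⟨a u, LinearMap.mem_range_self a u⟩ = f u := by
    intro u
    have : a.quotKerEquivRange.symm ⟨a u, LinearMap.mem_range_self a u⟩
        = Submodule.Quotient.mk u := by
      rw [LinearEquiv.symm_apply_eq]
      ext
      simp
    simp [g₀, this]
  obtain ⟨g, hg⟩ := LinearMap.exists_extend g₀
  obtain ⟨z, hz⟩ := hB' g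
  refine ⟨z, ?_⟩
  rw [← sub_eq_zero]
  apply hB
  intro u
  rw [map_sub, sub_eq_zero, ← hadj, hz]
  have h1 : g (a u) = g₀ ⟨a u, LinearMap.mem_range_self a u⟩ := by
    rw [← hg]; rfl
  rw [h1, hg₀]
  simp [f, hs]

end Field

end Fermat.Agent.S41.PDAssembly86
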