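/-
S41 / [DUAL-IHARA] (helper86): reduction of lattices and bilinear forms modulo a prime `p`.
`Vp p M := M ⧸ p M` as a `ZMod p`-vector space, the reduced bilinear form, transfer of
non-degeneracy and of representability of functionals.
-/
import Mathlib

set_option autoImplicit false
set_option linter.unusedSectionVars false

namespace Fermat.Agent.S41.PDAssembly86

open Submodule

variable (p : ℕ) [Fact p.Prime]

section Basic

variable (M : Type*) [AddCommGroup M]

/-- the subgroup `p M` as a `ℤ`-submodule -/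
def pSub : Submodule ℤ M := LinearMap.range (LinearMap.lsmul ℤ M (p : ℤ))

variable {M}

theorem mem_pSub {x : M} : x ∈ pSub p M ↔ ∃ w : M, x = (p : ℤ) • w := by
  constructor
  · rintro ⟨w, rfl⟩; exact ⟨w, rfl⟩
  · rintro ⟨w, rfl⟩; exact ⟨w, rfl⟩

variable (M)

/-- `M / p M` -/
abbrev Vp : Type _ := M ⧸ pSub p M

theorem nsmul_Vp (x : Vp p M) : p • x = 0 := by
  induction x using Submodule.Quotient.induction_on with
  | _ m =>
    rw [← Submodule.Quotient.mk_smul, Submodule.Quotient.mk_eq_zero, mem_pSub]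
    exact ⟨m, by rw [natCast_zsmul]⟩

/-- the `ZMod p`-vector space structure on `M / p M` -/
@[reducible] noncomputable def vpModule : Module (ZMod p) (Vp p M) :=
  AddCommGroup.zmodModule (nsmul_Vp p M)

attribute [local instance] vpModule

variable {M}

/-- reduction map -/
def red : M →ₗ[ℤ] Vp p M := (pSub p M).mkQ

theorem red_surjective : Function.Surjective (red p (M := M)) := Submodule.mkQ_surjective _

theorem red_eq_zero_iff {x : M} : red p x = 0 ↔ ∃ w : M, x = (p : ℤ) • w := by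
  rw [red, Submodule.mkQ_apply, Submodule.Quotient.mk_eq_zero, mem_pSub]

theorem red_eq_red_iff {x y : M} : red p x = red p y ↔ ∃ w : M, x - y = (p : ℤ) • w := by
  rw [← sub_eq_zero, ← map_sub, red_eq_zero_iff]

end Basic

attribute [local instance] vpModule

section Maps

variable {M N : Type*} [AddCommGroup M] [AddCommGroup N]

/-- reduction of an additive map -/
noncomputable def redMap (f : M →+ N) : Vp p M →ₗ[ZMod p] Vp p N :=
  AddMonoidHom.toZModLinearMap p
    ((Submodule.mapQ (pSub p M) (pSub p N) f.toIntLinearMap (by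
      intro x hx
      rw [mem_pSub] at hx
      obtain ⟨w, rfl⟩ := hx
      rw [Submodule.mem_comap, mem_pSub]
      exact ⟨f w, by simp⟩)).toAddMonoidHom)

@[simp] theorem redMap_red (f : M →+ N) (x : M) : redMap p f (red p x) = red p (f x) := rfl

/-- the cast `ℤ → ZMod p` as a `ℤ`-linear map -/
def castLin : ℤ →ₗ[ℤ] ZMod p := (Int.castAddHom (ZMod p)).toIntLinearMap

@[simp] theorem castLin_apply (a : ℤ) : castLin p a = (a : ZMod p) := rfl

theorem zsmul_zmod_eq_zero (z : ZMod p) : (p : ℤ) • z = 0 := by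
  rw [← Int.cast_smul_eq_zsmul (ZMod p)]
  simp

/-- reduction of a `ℤ`-bilinear form -/
noncomputable def redForm (B : M →ₗ[ℤ] N →ₗ[ℤ] ℤ) : Vp p M →ₗ[ZMod p] Vp p N →ₗ[ZMod p] ZMod p := by
  -- first variable
  let Φ : M →ₗ[ℤ] N →ₗ[ℤ] ZMod p := B.compr₂ (castLin p)
  have h1 : pSub p M ≤ LinearMap.ker Φ := by
    intro x hx
    rw [mem_pSub] at hx
    obtain ⟨w, rfl⟩ := hx
    rw [LinearMap.mem_ker, map_smul]
    ext n
    simp only [LinearMap.smul_apply, LinearMap.zero_apply]
    exact zsmul_zmod_eq_zero p _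
  let Φ₁ : Vp p M →ₗ[ℤ] N →ₗ[ℤ] ZMod p := (pSub p M).liftQ Φ h1
  have h2 : pSub p N ≤ LinearMap.ker Φ₁.flip := by
    intro x hx
    rw [mem_pSub] at hx
    obtain ⟨w, rfl⟩ := hx
    rw [LinearMap.mem_ker, map_smul]
    refine LinearMap.ext fun n => ?_
    show (p : ℤ) • (Φ₁.flip w n) = 0
    exact zsmul_zmod_eq_zero p _
  let Φ₂ : Vp p N →ₗ[ℤ] Vp p M →ₗ[ℤ] ZMod p := (pSub p N).liftQ Φ₁.flip h2
  exact LinearMap.mk₂ (ZMod p) (fun x y => Φ₂ y x)
    (fun x x' y => by simp)
    (fun c x y => ZMod.map_smul (Φ₂ y) c x)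
    (fun x y y' => by simp)
    (fun c x y => by
      have := ZMod.map_smul (Φ₂.flip x) c y
      simpa using this)

@[simp] theorem redForm_red (B : M →ₗ[ℤ] N →ₗ[ℤ] ℤ) (x : M) (y : N) :
    redForm p B (red p x) (red p y) = ((B x y : ℤ) : ZMod p) := rfl

end Maps

section Transfer

variable {M : Type*} [AddCommGroup M]

/-- non-degeneracy mod `p` from perfectness over `ℤ`. -/
theorem redForm_nondeg (B : M →ₗ[ℤ] M →ₗ[ℤ] ℤ)
    (hnd : ∀ y, (∀ x, B x y = 0) → y = 0)
    (hperf : ∀ l : M →ₗ[ℤ] ℤ, ∃ y, ∀ x, B x y = l x)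
    (x : Vp p M) (hx : ∀ u, redForm p B u x = 0) : x = 0 := by
  obtain ⟨y, rfl⟩ := red_surjective p x
  -- `u ↦ B u y / p` is a linear functional
  have hdiv : ∀ u, (p : ℤ) ∣ B u y := by
    intro u
    have := hx (red p u)
    rw [redForm_red] at this
    exact (ZMod.intCast_zmod_eq_zero_iff_dvd _ p).1 this
  have hp0 : (p : ℤ) ≠ 0 := by exact_mod_cast (Fact.out : p.Prime).ne_zero
  let l : M →ₗ[ℤ] ℤ :=
    { toFun := fun u => B u y / (p : ℤ)
      map_add' := by
        intro u v
        obtain ⟨a, ha⟩ := hdiv u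
        obtain ⟨b, hb⟩ := hdiv v
        have hab : B (u + v) y = (p : ℤ) * (a + b) := by
          rw [map_add, LinearMap.add_apply, ha, hb]; ring
        rw [hab, ha, hb, Int.mul_ediv_cancel_left _ hp0, Int.mul_ediv_cancel_left _ hp0,
          Int.mul_ediv_cancel_left _ hp0]
      map_smul' := by
        intro c u
        obtain ⟨a, ha⟩ := hdiv u
        have hab : B (c • u) y = (p : ℤ) * (c * a) := by
          rw [map_smul, LinearMap.smul_apply, ha, smul_eq_mul]; ring
        rw [hab, ha, Int.mul_ediv_cancel_left _ hp0, Int.mul_ediv_cancel_left _ hp0]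
        simp }
  obtain ⟨z, hz⟩ := hperf l
  have : y - (p : ℤ) • z = 0 := by
    apply hnd
    intro u
    rw [map_sub, map_smul, hz u, sub_eq_zero]
    show B u y = (p : ℤ) • (B u y / (p : ℤ))
    obtain ⟨a, ha⟩ := hdiv u
    rw [ha, Int.mul_ediv_cancel_left _ hp0, smul_eq_mul]
  rw [red_eq_zero_iff]
  exact ⟨z, sub_eq_zero.1 this⟩

/-- representability mod `p` from representability over `ℤ`, for a free lattice of finite rank. -/
theorem redForm_repr [Module.Free ℤ M] [Module.Finite ℤ M] (B : M →ₗ[ℤ] M →ₗ[ℤ] ℤ)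
    (hperf : ∀ l : M →ₗ[ℤ] ℤ, ∃ y, ∀ x, B x y = l x)
    (l : Vp p M →ₗ[ZMod p] ZMod p) : ∃ z, ∀ y, redForm p B y z = l y := by
  classical
  -- lift `l` to a `ℤ`-linear functional using a basis
  let b := Module.Free.chooseBasis ℤ M
  have hl : ∀ i, ∃ a : ℤ, (a : ZMod p) = l (red p (b i)) := fun i =>
    ZMod.intCast_surjective _
  choose a ha using hl
  let lZ : M →ₗ[ℤ] ℤ := b.constr ℤ a
  obtain ⟨z, hz⟩ := hperf lZ
  refine ⟨red p z, ?_⟩
  intro y
  obtain ⟨y, rfl⟩ := red_surjective p y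
  rw [redForm_red, hz]
  -- compare the two additive maps `M → ZMod p` on the basis
  let f₁ : M →ₗ[ℤ] ZMod p := (castLin p).comp lZ
  let f₂ : M →ₗ[ℤ] ZMod p :=
    (l.toAddMonoidHom.toIntLinearMap).comp (red p)
  have : f₁ = f₂ := by
    apply b.ext
    intro i
    simp only [f₁, f₂, LinearMap.comp_apply, castLin_apply, lZ, Module.Basis.constr_basis]
    rw [ha i]
    rfl
  exact LinearMap.congr_fun this y

end Transfer

end Fermat.Agent.S41.PDAssembly86
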