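/-
S41 / [DUAL-IHARA] (helper86): lattice form.  See `DualIhara.lean` for the field lemma.
-/
import Fermat.Agent.S41.PDAssembly86.ModP
import Fermat.Agent.S41.PDAssembly86.DualIhara

set_option autoImplicit false
set_option linter.unusedSectionVars false

namespace Fermat.Agent.S41.PDAssembly86

attribute [local instance] vpModule

section Lattice

variable {𝕋 : Type*} [CommRing 𝕋] {M₁ M₂ : Type*} [AddCommGroup M₁] [Module 𝕋 M₁]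
  [AddCommGroup M₂] [Module 𝕋 M₂]

/-- **mod `p` duality step**: if the self-adjoint `s` kills the kernel of `α` mod `p`, then
`s M₁ ⊆ β M₂ + p M₁`. -/
theorem smul_mem_range_add (p : ℕ) [Fact p.Prime] [Module.Free ℤ M₂] [Module.Finite ℤ M₂]
    (B₁ : M₁ →ₗ[ℤ] M₁ →ₗ[ℤ] ℤ) (B₂ : M₂ →ₗ[ℤ] M₂ →ₗ[ℤ] ℤ)
    (hnd₁ : ∀ y, (∀ x, B₁ x y = 0) → y = 0)
    (hperf₁ : ∀ l : M₁ →ₗ[ℤ] ℤ, ∃ y, ∀ x, B₁ x y = l x)
    (hperf₂ : ∀ l : M₂ →ₗ[ℤ] ℤ, ∃ y, ∀ x, B₂ x y = l x)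
    (α : M₁ →ₗ[𝕋] M₂) (β : M₂ →ₗ[𝕋] M₁) (hadj : ∀ u z, B₂ (α u) z = B₁ u (β z))
    (s : 𝕋) (hs : ∀ u v, B₁ (s • u) v = B₁ u (s • v))
    (hker : ∀ u, (∃ w, α u = (p : ℤ) • w) → ∃ u', s • u = (p : ℤ) • u') (v : M₁) :
    ∃ z w, β z = s • v + (p : ℤ) • w := by
  classical
  let sHom : M₁ →+ M₁ := DistribSMul.toAddMonoidHom M₁ s
  obtain ⟨z, hz⟩ := exists_preimage_of_adjoint (K := ZMod p)
    (redMap p (α : M₁ →+ M₂)) (redMap p (β : M₂ →+ M₁)) (redForm p B₁) (redForm p B₂)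
    (by
      intro u z
      obtain ⟨u, rfl⟩ := red_surjective p u
      obtain ⟨z, rfl⟩ := red_surjective p z
      simp only [redMap_red, redForm_red]
      congr 1
      exact hadj u z)
    (redForm_nondeg p B₁ hnd₁ hperf₁)
    (redForm_repr p B₂ hperf₂)
    (redMap p sHom)
    (by
      intro u v
      obtain ⟨u, rfl⟩ := red_surjective p u
      obtain ⟨v, rfl⟩ := red_surjective p v
      simp only [redMap_red, redForm_red]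
      congr 1
      exact hs u v)
    (by
      intro u hu
      obtain ⟨u, rfl⟩ := red_surjective p u
      rw [redMap_red, red_eq_zero_iff] at hu
      rw [redMap_red, red_eq_zero_iff]
      exact hker u hu)
    (red p v)
  obtain ⟨z, rfl⟩ := red_surjective p z
  rw [redMap_red, redMap_red, red_eq_red_iff] at hz
  obtain ⟨w, hw⟩ := hz
  refine ⟨z, w, ?_⟩
  have : β z = s • v + (β z - s • v) := by abel
  rw [this]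
  congr 1

/-- a uniform Ihara element: if every element of `ker ᾱ` is killed by some `s ∉ 𝔪`, one `s₀ ∉ 𝔪`
kills all of `ker ᾱ` (the lattice mod `p` is finite). -/
theorem exists_uniform_killer (p : ℕ) [Fact p.Prime] [Module.Finite ℤ M₁]
    (𝔪 : Ideal 𝕋) [𝔪.IsPrime] (α : M₁ →ₗ[𝕋] M₂)
    (hI : ∀ u, (∃ w, α u = (p : ℤ) • w) → ∃ s ∉ 𝔪, ∃ u', s • u = (p : ℤ) • u') :
    ∃ s₀ ∉ 𝔪, ∀ u, (∃ w, α u = (p : ℤ) • w) → ∃ u', s₀ • u = (p : ℤ) • u' := by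
  classical
  have : Module.Finite (ZMod p) (Vp p M₁) :=
    Module.Finite.of_restrictScalars_finite ℤ (ZMod p) (Vp p M₁)
  have : Finite (Vp p M₁) := Module.finite_of_finite (ZMod p)
  have : Fintype (Vp p M₁) := Fintype.ofFinite _
  -- for every class a killer
  have key : ∀ c : Vp p M₁, ∃ s : 𝕋, s ∉ 𝔪 ∧
      ∀ u, red p u = c → (∃ w, α u = (p : ℤ) • w) → ∃ u', s • u = (p : ℤ) • u' := by
    intro c
    by_cases hc : ∃ u₀, red p u₀ = c ∧ ∃ w, α u₀ = (p : ℤ) • w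
    · obtain ⟨u₀, hu₀, hw₀⟩ := hc
      obtain ⟨s, hs, u', hu'⟩ := hI u₀ hw₀
      refine ⟨s, hs, ?_⟩
      intro u hu _
      have h1 : red p u = red p u₀ := by rw [hu, hu₀]
      rw [red_eq_red_iff] at h1
      obtain ⟨t, ht⟩ := h1
      refine ⟨u' + s • t, ?_⟩
      have : u = u₀ + (p : ℤ) • t := by rw [← ht]; abel
      rw [this, smul_add, hu', smul_add, smul_comm s (p : ℤ) t]
    · refine ⟨1, (Ideal.ne_top_iff_one 𝔪).1 (Ideal.IsPrime.ne_top inferInstance), ?_⟩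
      intro u hu hw
      exact absurd ⟨u, hu, hw⟩ hc
  choose S hS hS' using key
  refine ⟨∏ c, S c, ?_, ?_⟩
  · intro hmem
    rw [Ideal.IsPrime.prod_mem_iff] at hmem
    obtain ⟨c, -, hc⟩ := hmem
    exact hS c hc
  · intro u hw
    obtain ⟨u', hu'⟩ := hS' (red p u) u rfl hw
    refine ⟨(∏ c ∈ Finset.univ.erase (red p u), S c) • u', ?_⟩
    rw [← Finset.mul_prod_erase Finset.univ S (Finset.mem_univ (red p u)), mul_comm, mul_smul, hu',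
      smul_comm]

variable [Module.Finite ℤ M₁] [Module.Free ℤ M₂] [Module.Finite ℤ M₂]

/-- **[DUAL-IHARA], mod `p` form** (`hDual` of `Ribet15`). -/
theorem hDual_of_pd (p : ℕ) [Fact p.Prime] (𝔪 : Ideal 𝕋) [𝔪.IsPrime]
    (B₁ : M₁ →ₗ[ℤ] M₁ →ₗ[ℤ] ℤ) (B₂ : M₂ →ₗ[ℤ] M₂ →ₗ[ℤ] ℤ)
    (hnd₁ : ∀ y, (∀ x, B₁ x y = 0) → y = 0)
    (hperf₁ : ∀ l : M₁ →ₗ[ℤ] ℤ, ∃ y, ∀ x, B₁ x y = l x)
    (hperf₂ : ∀ l : M₂ →ₗ[ℤ] ℤ, ∃ y, ∀ x, B₂ x y = l x)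
    (α : M₁ →ₗ[𝕋] M₂) (β : M₂ →ₗ[𝕋] M₁) (hadj : ∀ u z, B₂ (α u) z = B₁ u (β z))
    (hT : ∀ (t : 𝕋) u v, B₁ (t • u) v = B₁ u (t • v))
    (hI : ∀ u, (∃ w, α u = (p : ℤ) • w) → ∃ s ∉ 𝔪, ∃ u', s • u = (p : ℤ) • u') :
    ∃ s₀ ∉ 𝔪, ∀ v : M₁, ∃ z w, β z = s₀ • v + (p : ℤ) • w := by
  obtain ⟨s₀, hs₀, hk⟩ := exists_uniform_killer p 𝔪 α hI
  exact ⟨s₀, hs₀, fun v =>
    smul_mem_range_add p B₁ B₂ hnd₁ hperf₁ hperf₂ α β hadj s₀ (hT s₀) hk v⟩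

/-- **[DUAL-IHARA], `Ribet15` shape**: ONE element `s₀ ∉ 𝔪` which is an Ihara element
(`hIhara` of `Ribet15.exists_new_eigenvector`) and satisfies `hDual`. -/
theorem exists_ihara_dual (p : ℕ) [Fact p.Prime] (𝔪 : Ideal 𝕋) [𝔪.IsPrime]
    (B₁ : M₁ →ₗ[ℤ] M₁ →ₗ[ℤ] ℤ) (B₂ : M₂ →ₗ[ℤ] M₂ →ₗ[ℤ] ℤ)
    (hnd₁ : ∀ y, (∀ x, B₁ x y = 0) → y = 0)
    (hperf₁ : ∀ l : M₁ →ₗ[ℤ] ℤ, ∃ y, ∀ x, B₁ x y = l x)
    (hperf₂ : ∀ l : M₂ →ₗ[ℤ] ℤ, ∃ y, ∀ x, B₂ x y = l x)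
    (α : M₁ →ₗ[𝕋] M₂) (β : M₂ →ₗ[𝕋] M₁) (hadj : ∀ u z, B₂ (α u) z = B₁ u (β z))
    (hT : ∀ (t : 𝕋) u v, B₁ (t • u) v = B₁ u (t • v))
    (hI : ∀ u, (∃ w, α u = (p : ℤ) • w) → ∃ s ∉ 𝔪, ∃ u', s • u = (p : ℤ) • u') :
    ∃ s₀ ∉ 𝔪, (∀ u, (∃ w, α u = (p : ℤ) • w) → ∃ u', s₀ • u = (p : ℤ) • u') ∧
      ∀ v : M₁, ∃ z w, β z = s₀ • v + (p : ℤ) • w := by
  obtain ⟨s₀, hs₀, hk⟩ := exists_uniform_killer p 𝔪 α hI
  exact ⟨s₀, hs₀, hk, fun v =>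
    smul_mem_range_add p B₁ B₂ hnd₁ hperf₁ hperf₂ α β hadj s₀ (hT s₀) hk v⟩

/-- **[DUAL-IHARA], localised form**: `β` is onto after localisation at `𝔪`. -/
theorem hII_of_pd (p : ℕ) [Fact p.Prime] (𝔪 : Ideal 𝕋) [𝔪.IsPrime] (hp𝔪 : (p : 𝕋) ∈ 𝔪)
    (B₁ : M₁ →ₗ[ℤ] M₁ →ₗ[ℤ] ℤ) (B₂ : M₂ →ₗ[ℤ] M₂ →ₗ[ℤ] ℤ)
    (hnd₁ : ∀ y, (∀ x, B₁ x y = 0) → y = 0)
    (hperf₁ : ∀ l : M₁ →ₗ[ℤ] ℤ, ∃ y, ∀ x, B₁ x y = l x)
    (hperf₂ : ∀ l : M₂ →ₗ[ℤ] ℤ, ∃ y, ∀ x, B₂ x y = l x)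
    (α : M₁ →ₗ[𝕋] M₂) (β : M₂ →ₗ[𝕋] M₁) (hadj : ∀ u z, B₂ (α u) z = B₁ u (β z))
    (hT : ∀ (t : 𝕋) u v, B₁ (t • u) v = B₁ u (t • v))
    (hI : ∀ u, (∃ w, α u = (p : ℤ) • w) → ∃ s ∉ 𝔪, ∃ u', s • u = (p : ℤ) • u') :
    ∀ v : M₁, ∃ s ∉ 𝔪, ∃ z, β z = s • v := by
  obtain ⟨s₀, hs₀, hd⟩ := hDual_of_pd p 𝔪 B₁ B₂ hnd₁ hperf₁ hperf₂ α β hadj hT hI
  have : Module.Finite 𝕋 M₁ := Module.Finite.of_restrictScalars_finite ℤ 𝕋 M₁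
  -- Nakayama on the cokernel of `β`
  obtain ⟨s₁, hs₁, hkill⟩ := Fermat.Agent.S41.Ribet15.exists_notMem_smul_eq_zero
    (M := M₁ ⧸ LinearMap.range β) 𝔪 hp𝔪 hs₀ (by
      intro m
      obtain ⟨v, rfl⟩ := Submodule.Quotient.mk_surjective _ m
      obtain ⟨z, w, hzw⟩ := hd v
      refine ⟨- Submodule.Quotient.mk w, ?_⟩
      rw [← Submodule.Quotient.mk_smul, smul_neg, ← Submodule.Quotient.mk_smul,
        ← Submodule.Quotient.mk_neg, Submodule.Quotient.eq]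
      have : s₀ • v - -((p : 𝕋) • w) = β z := by
        rw [hzw, Nat.cast_smul_eq_nsmul, natCast_zsmul]; abel
      rw [this]
      exact LinearMap.mem_range_self β z)
  intro v
  refine ⟨s₁, hs₁, ?_⟩
  have := hkill (Submodule.Quotient.mk v)
  rw [← Submodule.Quotient.mk_smul, Submodule.Quotient.mk_eq_zero] at this
  obtain ⟨z, hz⟩ := this
  exact ⟨z, hz⟩

end Lattice

end Fermat.Agent.S41.PDAssembly86
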