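/-
S41 / [DUAL-IHARA] (helper86): the statement in the literal shape consumed by
`RibetAlgGlobal85.exists_mem_ker_forall_smul_ne_zero` (hypothesis `hII`) — lattices `L`, `L'`,
degeneracy maps `α₁ α₂ : L → L'`, traces `β₁ β₂ : L' → L`.
-/
import Fermat.Agent.S41.PDAssembly86.DualIharaLattice
import Fermat.Agent.S41.RibetAlg85.Global

set_option autoImplicit false

namespace Fermat.Agent.S41.PDAssembly86

open Fermat.Agent.S41.RibetAlg85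

section Shape

variable {𝕋 : Type*} [CommRing 𝕋] {L L' : Type*} [AddCommGroup L] [Module 𝕋 L]
  [AddCommGroup L'] [Module 𝕋 L']

/-- the orthogonal sum of a form with itself on `L × L` -/
def prodForm (B : L →ₗ[ℤ] L →ₗ[ℤ] ℤ) : (L × L) →ₗ[ℤ] (L × L) →ₗ[ℤ] ℤ :=
  B.compl₁₂ (LinearMap.fst ℤ L L) (LinearMap.fst ℤ L L)
    + B.compl₁₂ (LinearMap.snd ℤ L L) (LinearMap.snd ℤ L L)

@[simp] theorem prodForm_apply (B : L →ₗ[ℤ] L →ₗ[ℤ] ℤ) (u v : L × L) :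
    prodForm B u v = B u.1 v.1 + B u.2 v.2 := rfl

theorem pDvd_natCast_iff (p : ℕ) {M : Type*} [AddCommGroup M] [Module 𝕋 M] (m : M) :
    PDvd (p : 𝕋) m ↔ ∃ w : M, m = (p : ℤ) • w := by
  have h : ∀ w : M, (p : 𝕋) • w = (p : ℤ) • w := fun w => by
    rw [Nat.cast_smul_eq_nsmul, natCast_zsmul]
  constructor
  · rintro ⟨w, rfl⟩
    exact ⟨w, h w⟩
  · rintro ⟨w, rfl⟩
    exact ⟨w, (h w).symm⟩

variable [Module.Finite ℤ L] [Module.Free ℤ L'] [Module.Finite ℤ L']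

/-- **[DUAL-IHARA] in `RibetAlg85` shape**: perfect pairings, self-adjoint Hecke action,
`βᵢ` adjoint to `αᵢ`, and Ihara's lemma `hI` give `hII`. -/
theorem hII_of_pd_ribet (p : ℕ) [Fact p.Prime] (𝔪 : Ideal 𝕋) [𝔪.IsPrime] (hp𝔪 : (p : 𝕋) ∈ 𝔪)
    (B : L →ₗ[ℤ] L →ₗ[ℤ] ℤ) (B' : L' →ₗ[ℤ] L' →ₗ[ℤ] ℤ)
    (hnd : ∀ y, (∀ x, B x y = 0) → y = 0)
    (hperf : ∀ l : L →ₗ[ℤ] ℤ, ∃ y, ∀ x, B x y = l x)
    (hperf' : ∀ l : L' →ₗ[ℤ] ℤ, ∃ y, ∀ x, B' x y = l x)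
    (hT : ∀ (t : 𝕋) x y, B (t • x) y = B x (t • y))
    (α₁ α₂ : L →ₗ[𝕋] L') (β₁ β₂ : L' →ₗ[𝕋] L)
    (hadj₁ : ∀ x z, B' (α₁ x) z = B x (β₁ z)) (hadj₂ : ∀ x z, B' (α₂ x) z = B x (β₂ z))
    (hI : ∀ x y : L, PDvd (p : 𝕋) (α₁ x + α₂ y) →
      ∃ s ∉ 𝔪, PDvd (p : 𝕋) (s • x) ∧ PDvd (p : 𝕋) (s • y)) :
    ∀ x y : L, ∃ s ∉ 𝔪, ∃ z : L', β₁ z = s • x ∧ β₂ z = s • y := by
  intro x y
  obtain ⟨s, hs, z, hz⟩ := hII_of_pd (M₁ := L × L) (M₂ := L') p 𝔪 hp𝔪 (prodForm B) B'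
    (by
      intro v hv
      refine Prod.ext (hnd _ fun u => ?_) (hnd _ fun u => ?_)
      · simpa using hv (u, 0)
      · simpa using hv (0, u))
    (by
      intro l
      obtain ⟨y₁, hy₁⟩ := hperf (l.comp (LinearMap.inl ℤ L L))
      obtain ⟨y₂, hy₂⟩ := hperf (l.comp (LinearMap.inr ℤ L L))
      refine ⟨(y₁, y₂), ?_⟩
      rintro ⟨u₁, u₂⟩
      simp only [prodForm_apply, hy₁, hy₂, LinearMap.comp_apply, LinearMap.inl_apply,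
        LinearMap.inr_apply, ← map_add]
      simp)
    hperf' (α₁.coprod α₂) (β₁.prod β₂)
    (by
      rintro ⟨u₁, u₂⟩ z
      simp only [LinearMap.coprod_apply, map_add, LinearMap.add_apply, hadj₁, hadj₂,
        prodForm_apply, LinearMap.prod_apply]
      rfl)
    (by
      rintro t ⟨u₁, u₂⟩ ⟨v₁, v₂⟩
      simp only [prodForm_apply, Prod.smul_mk, hT])
    (by
      rintro ⟨u₁, u₂⟩ hw
      rw [← pDvd_natCast_iff (𝕋 := 𝕋)] at hw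
      obtain ⟨s, hs, h1, h2⟩ := hI u₁ u₂ (by simpa using hw)
      rw [pDvd_natCast_iff] at h1 h2
      obtain ⟨w₁, hw₁⟩ := h1
      obtain ⟨w₂, hw₂⟩ := h2
      exact ⟨s, hs, (w₁, w₂), by simp [Prod.smul_mk, hw₁, hw₂]⟩)
    (x, y)
  refine ⟨s, hs, z, ?_, ?_⟩
  · have := congrArg Prod.fst hz
    simpa using this
  · have := congrArg Prod.snd hz
    simpa using this

end Shape

end Fermat.Agent.S41.PDAssembly86
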