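/-
S41 / C8c [TRANSPOSE] (helper86), part 1: the generator formula (K2) in helper84's `PDCore84`
conventions.

`S : PDCore84.Setting G Ω` (`s`, `u`, `t = s⁻¹ * u`; `s * s = u * u * u` of order `≤ 2` acting
trivially), `x x' : S.X`, `z = spl x`, `z' = spl x'` the splice cocycles (`z s = z u = x`,
`z t = 0`), viewed with rational values.  For EVERY primitive `K : G → Ω → ℚ` of the cup product
`z ∪ z'` in helper22's sense (`CuspSum22.IsPrim`):

  `∑ ω, K t ω = form (J x) (J x')`     (`sum_K_t`)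

i.e. the intersection form of `PDCore84` IS the cusp sum of `CuspSum22`, with constant `+1`.
-/
import Mathlib
import Fermat.Agent.S41.PDCore84.Core4
import Fermat.Agent.S41.CuspSum22.Core

set_option autoImplicit false
set_option linter.unusedSectionVars false

namespace Fermat.Agent.S41.PDAssembly86

open Fermat.Agent.S41
open scoped BigOperators

section Cast

variable {G : Type*} [Group G] {Ω : Type*} [MulAction G Ω]

/-- rational cast of an integral function on `Ω`. -/
def castF (m : Ω → ℤ) : Ω → ℚ := fun ω => (m ω : ℚ)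

/-- rational cast of an integral cochain. -/
def castQ (z : G → Ω → ℤ) : G → Ω → ℚ := fun g => castF (z g)

@[simp] theorem castF_apply (m : Ω → ℤ) (ω : Ω) : castF m ω = (m ω : ℚ) := rfl

@[simp] theorem castQ_apply (z : G → Ω → ℤ) (g : G) : castQ z g = castF (z g) := rfl

theorem castF_add (m m' : Ω → ℤ) : castF (m + m') = castF m + castF m' := by
  funext ω; simp [castF]

theorem castF_neg (m : Ω → ℤ) : castF (-m) = -castF m := by
  funext ω; simp [castF]

theorem castF_zero : castF (0 : Ω → ℤ) = 0 := by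
  funext ω; simp [castF]

theorem castF_act (g : G) (m : Ω → ℤ) :
    castF (PDCore84.act g m) = CuspSum22.act g (castF m) := by
  funext ω; simp [castF]

theorem isCoc_castQ {z : G → Ω → ℤ} (hz : PDCore84.IsCocycle z) : CuspSum22.IsCoc (castQ z) := by
  intro g h
  show castF (z (g * h)) = castF (z g) + CuspSum22.act g (castF (z h))
  rw [hz g h, castF_add, castF_act]

theorem sum_castF_mul [Fintype Ω] (m m' : Ω → ℤ) :
    ∑ ω, (castF m * castF m') ω = ((PDCore84.ip m m' : ℤ) : ℚ) := by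
  simp [castF, PDCore84.ip]

end Cast

section Formula

variable {G : Type*} [Group G] {Ω : Type*} [MulAction G Ω] [Fintype Ω]

/-- total sum -/
def tot (f : Ω → ℚ) : ℚ := ∑ ω, f ω

theorem tot_act (g : G) (f : Ω → ℚ) : tot (CuspSum22.act g f) = tot f := CuspSum22.sum_act g f

theorem tot_add (f f' : Ω → ℚ) : tot (f + f') = tot f + tot f' := by
  simp [tot, Finset.sum_add_distrib]

theorem tot_sub (f f' : Ω → ℚ) : tot (f - f') = tot f - tot f' := by
  simp [tot, Finset.sum_sub_distrib]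

theorem tot_neg (f : Ω → ℚ) : tot (-f) = -tot f := by
  simp [tot]

theorem tot_zero : tot (0 : Ω → ℚ) = 0 := by simp [tot]

end Formula


open Fermat.Agent.S41.PDCore84

section Main

variable {G : Type*} [Group G] {Ω : Type*} [MulAction G Ω] (S : PDCore84.Setting G Ω)
variable [Fintype Ω]

/-- the abstract computation, with rational functions. -/
theorem tot_K_t_aux {z z' K : G → Ω → ℚ} {m m' : Ω → ℚ}
    (hz : CuspSum22.IsCoc z) (hz' : CuspSum22.IsCoc z') (hK : CuspSum22.IsPrim z z' K)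
    (hzs : z S.s = m) (hzu : z S.u = m) (hz's : z' S.s = m') (hz'u : z' S.u = m')
    (hm' : CuspSum22.act S.s m' = -m')
    (hm'u : m' + CuspSum22.act S.u m' + CuspSum22.act S.u (CuspSum22.act S.u m') = 0) :
    tot (K S.t) = (1 / 6 : ℚ) * (tot (m * m') + 2 * tot (m * CuspSum22.act S.u m')) := by
  have hfix : ∀ f : Ω → ℚ, CuspSum22.act (S.s * S.s) f = f := by
    intro f; funext ω
    rw [CuspSum22.act_apply]
    have : (S.s * S.s)⁻¹ • ω = ω := by rw [inv_smul_eq_iff, S.hs]
    rw [this]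
  have hK1 : K 1 = 0 := hK.map_one hz
  -- z and z' vanish at e = s * s
  have hze : ∀ {c : G → Ω → ℚ}, CuspSum22.IsCoc c → c (S.s * S.s) = 0 := by
    intro c hc
    have h := hc (S.s * S.s) (S.s * S.s)
    rw [S.he, hc.map_one, hfix] at h
    funext ω
    have := congrFun h ω
    simp only [Pi.zero_apply, Pi.add_apply] at this ⊢
    linarith
  have hKe : K (S.s * S.s) = 0 := by
    have h := hK (S.s * S.s) (S.s * S.s)
    rw [S.he, hK1, hfix, hze hz, zero_mul, sub_zero] at h
    funext ω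
    have := congrFun h ω
    simp only [Pi.zero_apply, Pi.add_apply] at this ⊢
    linarith
  -- K s
  have h4 : 2 * tot (K S.s) = - tot (m * m') := by
    have h := hK S.s S.s
    rw [hKe, hzs, hz's, hm'] at h
    have h2 := congrArg tot h
    rw [tot_zero, tot_sub, tot_add, tot_act, mul_neg, tot_neg] at h2
    linarith
  -- K u
  have h5 : 3 * tot (K S.u) = tot (m * CuspSum22.act S.u m') - tot (m * m') := by
    have h1 := hK (S.u * S.u) S.u
    have h2 := hK S.u S.u
    have hz2 := hz S.u S.u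
    rw [← S.hsu, hKe, h2, hz2, hzu, hz'u, CuspSum22.act_mul, CuspSum22.act_mul] at h1
    have htt : CuspSum22.act S.u (CuspSum22.act S.u m') = -m' - CuspSum22.act S.u m' := by
      have : CuspSum22.act S.u (CuspSum22.act S.u m')
          = (m' + CuspSum22.act S.u m' + CuspSum22.act S.u (CuspSum22.act S.u m')) - m'
            - CuspSum22.act S.u m' := by ring
      rw [this, hm'u]; ring
    have e1 : tot (CuspSum22.act S.u m * CuspSum22.act S.u (CuspSum22.act S.u m'))
        = tot (m * CuspSum22.act S.u m') := by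
      rw [← CuspSum22.act_mulf, tot_act]
    have e2 : tot (m * CuspSum22.act S.u (CuspSum22.act S.u m'))
        = - tot (m * m') - tot (m * CuspSum22.act S.u m') := by
      rw [htt, mul_sub, mul_neg, tot_sub, tot_neg]
    have expand : K S.u + CuspSum22.act S.u (K S.u) - m * CuspSum22.act S.u m'
          + CuspSum22.act S.u (CuspSum22.act S.u (K S.u))
          - (m + CuspSum22.act S.u m) * CuspSum22.act S.u (CuspSum22.act S.u m')
        = K S.u + CuspSum22.act S.u (K S.u) + CuspSum22.act S.u (CuspSum22.act S.u (K S.u))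
          - m * CuspSum22.act S.u m' - m * CuspSum22.act S.u (CuspSum22.act S.u m')
          - CuspSum22.act S.u m * CuspSum22.act S.u (CuspSum22.act S.u m') := by ring
    rw [expand] at h1
    have h3 := congrArg tot h1
    rw [tot_zero, tot_sub, tot_sub, tot_sub, tot_add, tot_add, tot_act, tot_act, tot_act, e1, e2]
      at h3
    linarith
  -- K s⁻¹
  have h6a : CuspSum22.act S.s (z' S.s⁻¹) = -m' := by
    have h := hz' S.s S.s⁻¹
    rw [mul_inv_cancel, hz'.map_one, hz's] at h
    have : CuspSum22.act S.s (z' S.s⁻¹) = (m' + CuspSum22.act S.s (z' S.s⁻¹)) - m' := by ring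
    rw [this, ← h]; ring
  have h6b : CuspSum22.act S.s (z S.s⁻¹) = -m := by
    have h := hz S.s S.s⁻¹
    rw [mul_inv_cancel, hz.map_one, hzs] at h
    have : CuspSum22.act S.s (z S.s⁻¹) = (m + CuspSum22.act S.s (z S.s⁻¹)) - m := by ring
    rw [this, ← h]; ring
  have h6 : tot (K S.s⁻¹) = - tot (K S.s) - tot (m * m') := by
    have h := hK S.s S.s⁻¹
    rw [mul_inv_cancel, hK1, hzs, h6a] at h
    have h2 := congrArg tot h
    rw [tot_zero, tot_sub, tot_add, tot_act, mul_neg, tot_neg] at h2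
    linarith
  -- K t
  have h7 : tot (K S.t) = tot (K S.s⁻¹) + tot (K S.u) + tot (m * m') := by
    have h := hK S.s⁻¹ S.u
    have e : tot (z S.s⁻¹ * CuspSum22.act S.s⁻¹ (z' S.u)) = - tot (m * m') := by
      rw [← tot_act S.s, CuspSum22.act_mulf, ← CuspSum22.act_mul, mul_inv_cancel,
        CuspSum22.act_one, h6b, hz'u, neg_mul, tot_neg]
    have h2 := congrArg tot h
    rw [tot_sub, tot_add, tot_act, e] at h2
    show tot (K (S.s⁻¹ * S.u)) = _
    linarith
  linarith

end Main

section Int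

variable {G : Type*} [Group G] {Ω : Type*} [MulAction G Ω] (S : PDCore84.Setting G Ω)
variable [MulAction.IsPretransitive G Ω] [Fintype Ω] [DecidableEq Ω]

/-- the integral side: `6 * form (J x) (J x') = ⟨x, x'⟩ + 2 ⟨x, υ x'⟩`. -/
theorem six_mul_form_J_J (x x' : S.X) :
    6 * S.form (S.J x) (S.J x')
      = ip (x : Ω → ℤ) (x' : Ω → ℤ) + 2 * ip (x : Ω → ℤ) (act S.u (x' : Ω → ℤ)) := by
  obtain ⟨a', b', ha', hb'⟩ := S.exists_ab x'
  rw [S.form_J_J x x' ha' hb']
  have hσx : act S.s (x : Ω → ℤ) = -(x : Ω → ℤ) := S.act_s_of_mem_X x.2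
  have hux : (x : Ω → ℤ) + act S.u (x : Ω → ℤ) + act S.u (act S.u (x : Ω → ℤ)) = 0 := x.2.2
  -- ⟨x, a'⟩
  have e1 : ip (x : Ω → ℤ) (x' : Ω → ℤ) = -2 * ip (x : Ω → ℤ) a' := by
    rw [← ha', ip_sub_right, ← S.ip_act_s, hσx, ip_neg_left]; ring
  -- the three pairings with b'
  have e2 : ip (x : Ω → ℤ) (x' : Ω → ℤ) = ip (x : Ω → ℤ) (act S.u b') - ip (x : Ω → ℤ) b' := by
    rw [← hb', ip_sub_right]
  have e3 : ip (x : Ω → ℤ) (act S.u (x' : Ω → ℤ))
      = ip (x : Ω → ℤ) (act S.u (act S.u b')) - ip (x : Ω → ℤ) (act S.u b') := by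
    rw [← hb', map_sub, ip_sub_right]
  have e4 : ip (x : Ω → ℤ) b' + ip (x : Ω → ℤ) (act S.u b')
      + ip (x : Ω → ℤ) (act S.u (act S.u b')) = 0 := by
    have h1 : ip (x : Ω → ℤ) (act S.u b') = ip (act S.u (act S.u (x : Ω → ℤ))) b' := by
      rw [ip_act_right, S.act_u_inv]
    have h2 : ip (x : Ω → ℤ) (act S.u (act S.u b')) = ip (act S.u (x : Ω → ℤ)) b' := by
      rw [ip_act_right, ip_act_right, S.act_u_inv (x : Ω → ℤ), act_inv_act]
    rw [h1, h2, ← ip_add_left, ← ip_add_left]
    have : (x : Ω → ℤ) + act S.u (act S.u (x : Ω → ℤ)) + act S.u (x : Ω → ℤ) = 0 := by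
      rw [← hux]; abel
    rw [this, ip_zero_left]
  rw [ip_sub_right]
  linarith

end Int

section Final

variable {G : Type*} [Group G] {Ω : Type*} [MulAction G Ω] (S : PDCore84.Setting G Ω)
variable [MulAction.IsPretransitive G Ω] [Fintype Ω] [DecidableEq Ω]

/-- **(K2) in `PDCore84` conventions**: the intersection form is the cusp sum. For every primitive
`K` (rational values) of the cup product of the splice cocycles of `x`, `x'`:
`∑ ω, K t ω = form (J x) (J x')`. -/
theorem sum_K_t (x x' : S.X) {K : G → Ω → ℚ}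
    (hK : CuspSum22.IsPrim (castQ (S.spl x)) (castQ (S.spl x')) K) :
    ∑ ω, K S.t ω = ((S.form (S.J x) (S.J x') : ℤ) : ℚ) := by
  have hx' : act S.s (x' : Ω → ℤ) = -(x' : Ω → ℤ) := S.act_s_of_mem_X x'.2
  have hux' : (x' : Ω → ℤ) + act S.u (x' : Ω → ℤ) + act S.u (act S.u (x' : Ω → ℤ)) = 0 := x'.2.2
  have h := tot_K_t_aux S (m := castF (x : Ω → ℤ)) (m' := castF (x' : Ω → ℤ))
    (isCoc_castQ (S.spl_isCocycle x)) (isCoc_castQ (S.spl_isCocycle x')) hK
    (by rw [castQ_apply, S.spl_s]) (by rw [castQ_apply, S.spl_u])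
    (by rw [castQ_apply, S.spl_s]) (by rw [castQ_apply, S.spl_u])
    (by rw [← castF_act, hx', castF_neg])
    (by rw [← castF_act, ← castF_act, ← castF_add, ← castF_add, hux', castF_zero])
  have h6 := six_mul_form_J_J S x x'
  have e1 : tot (castF (x : Ω → ℤ) * castF (x' : Ω → ℤ))
      = ((ip (x : Ω → ℤ) (x' : Ω → ℤ) : ℤ) : ℚ) := sum_castF_mul _ _
  have e2 : tot (castF (x : Ω → ℤ) * CuspSum22.act S.u (castF (x' : Ω → ℤ)))
      = ((ip (x : Ω → ℤ) (act S.u (x' : Ω → ℤ)) : ℤ) : ℚ) := by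
    rw [← castF_act]; exact sum_castF_mul _ _
  have h6' : (6 : ℚ) * ((S.form (S.J x) (S.J x') : ℤ) : ℚ)
      = ((ip (x : Ω → ℤ) (x' : Ω → ℤ) : ℤ) : ℚ)
        + 2 * ((ip (x : Ω → ℤ) (act S.u (x' : Ω → ℤ)) : ℤ) : ℚ) := by
    exact_mod_cast h6
  show tot (K S.t) = _
  rw [h, e1, e2, ← h6']
  ring

end Final

end Fermat.Agent.S41.PDAssembly86
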