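/-
S41 / C8c [TRANSPOSE] (helper86), part 2: **[PD-COMM] for the intersection form of `PDCore84`**.

Two `PDCore84.Setting`s over `G = SL(2, ℤ)` with parabolic generator `t = T` (e.g. `s = S`,
`u = S * T`), on finite transitive `SL(2, ℤ)`-sets `Ω₁`, `Ω₂` on which `-1` acts trivially; an
isomorphism `θ : Γ₁ ≃* Γ₂` of the stabilisers intertwined by an integer matrix of positive
determinant (`α γ = θ(γ) α`).  Then `θ^*` is an isometry for the intersection forms: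

  `S₁.form (θ^* y) (θ^* y') = S₂.form y y'`     (`form_comp_equiv`)

Proof: `PDAssembly86.sum_K_t` (form = cusp sum) + `Pres37.exists_isPrim_rat` (primitives exist)
+ `PDComm92.form_comp_SL2` (cusp sums agree).
-/
import Mathlib
import Fermat.Agent.S41.PDAssembly86.KTwo
import Fermat.Agent.S41.Pres37.Prim
import Fermat.Agent.S41.CuspSum22.Classes
import Fermat.Agent.S41.PDComm92.FormComp

set_option autoImplicit false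
set_option linter.unusedSectionVars false

namespace Fermat.Agent.S41.PDAssembly86

open Fermat.Agent.S41
open Fermat.Agent.S41.PDCore84
open ModularGroup
open scoped MatrixGroups BigOperators

section A
variable {Ω : Type*} [MulAction SL(2, ℤ) Ω] 

theorem castQ_spl_T (S : Setting SL(2, ℤ) Ω) (ht : S.t = T) (x : S.X) :
    castQ (S.spl x) T = 0 := by
  rw [castQ_apply, ← ht, S.spl_t, castF_zero]

theorem ev_castQ_spl (S : Setting SL(2, ℤ) Ω) (x : S.X) (γ : MulAction.stabilizer SL(2, ℤ) S.ω₀) :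
    CuspSum22.ev S.ω₀ (castQ (S.spl x)) γ
      = (((S.J x : S.parSub) : Additive S.Γ →+ ℤ) (Additive.ofMul γ) : ℚ) := rfl

end A

variable {Ω₁ : Type*} [MulAction SL(2, ℤ) Ω₁] [Fintype Ω₁] [DecidableEq Ω₁]
  [MulAction.IsPretransitive SL(2, ℤ) Ω₁]
  {Ω₂ : Type*} [MulAction SL(2, ℤ) Ω₂] [Fintype Ω₂] [DecidableEq Ω₂]
  [MulAction.IsPretransitive SL(2, ℤ) Ω₂]

theorem form_J_comp_equiv (S₁ : Setting SL(2, ℤ) Ω₁) (S₂ : Setting SL(2, ℤ) Ω₂)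
    (ht₁ : S₁.t = T) (ht₂ : S₂.t = T)
    (hneg₁ : ∀ ω : Ω₁, (-1 : SL(2, ℤ)) • ω = ω) (hneg₂ : ∀ ω : Ω₂, (-1 : SL(2, ℤ)) • ω = ω)
    (θ : MulAction.stabilizer SL(2, ℤ) S₁.ω₀ ≃* MulAction.stabilizer SL(2, ℤ) S₂.ω₀)
    (α : Matrix (Fin 2) (Fin 2) ℤ) (hα : 0 < α.det)
    (hθ : ∀ γ : MulAction.stabilizer SL(2, ℤ) S₁.ω₀,
        α * ((γ : SL(2, ℤ)) : Matrix (Fin 2) (Fin 2) ℤ)
        = (((θ γ : MulAction.stabilizer SL(2, ℤ) S₂.ω₀) : SL(2, ℤ)) : Matrix (Fin 2) (Fin 2) ℤ) * α)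
    (x₁ x₁' : S₁.X) (x₂ x₂' : S₂.X)
    (hy : ∀ γ : MulAction.stabilizer SL(2, ℤ) S₁.ω₀,
        CuspSum22.ev S₁.ω₀ (castQ (S₁.spl x₁)) γ = CuspSum22.ev S₂.ω₀ (castQ (S₂.spl x₂)) (θ γ))
    (hy' : ∀ γ : MulAction.stabilizer SL(2, ℤ) S₁.ω₀,
        CuspSum22.ev S₁.ω₀ (castQ (S₁.spl x₁')) γ = CuspSum22.ev S₂.ω₀ (castQ (S₂.spl x₂')) (θ γ)) :
    S₁.form (S₁.J x₁) (S₁.J x₁') = S₂.form (S₂.J x₂) (S₂.J x₂') := by
  have hz₁ := isCoc_castQ (S₁.spl_isCocycle x₁)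
  have hz₁' := isCoc_castQ (S₁.spl_isCocycle x₁')
  have hz₂ := isCoc_castQ (S₂.spl_isCocycle x₂)
  have hz₂' := isCoc_castQ (S₂.spl_isCocycle x₂')
  obtain ⟨K₁, hK₁⟩ := Pres37.exists_isPrim_rat hneg₁ hz₁ hz₁'
  obtain ⟨K₂, hK₂⟩ := Pres37.exists_isPrim_rat hneg₂ hz₂ hz₂'
  have e₁ := sum_K_t S₁ x₁ x₁' hK₁
  have e₂ := sum_K_t S₂ x₂ x₂' hK₂
  rw [ht₁] at e₁
  rw [ht₂] at e₂
  have key : ∑ ω, K₁ T ω = ∑ ω, K₂ T ω := 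
    PDComm92.form_comp_SL2 (R := ℚ)
    (CuspSum22.CuspSys.ofOrbits (T : SL(2, ℤ)) S₁.ω₀) (CuspSum22.CuspSys.ofOrbits_w_pos _ _) hneg₁
    hK₁ hz₁ hz₁' (castQ_spl_T S₁ ht₁ x₁) (castQ_spl_T S₁ ht₁ x₁')
    (CuspSum22.CuspSys.ofOrbits (T : SL(2, ℤ)) S₂.ω₀) (CuspSum22.CuspSys.ofOrbits_w_pos _ _) hneg₂
    hK₂ hz₂ hz₂' (castQ_spl_T S₂ ht₂ x₂) (castQ_spl_T S₂ ht₂ x₂') θ α hα hθ hy hy'
  have : ((S₁.form (S₁.J x₁) (S₁.J x₁') : ℤ) : ℚ) = ((S₂.form (S₂.J x₂) (S₂.J x₂') : ℤ) : ℚ) := by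
    rw [← e₁, ← e₂, key]
  exact_mod_cast this


/-- **[PD-COMM]**: an isomorphism of stabilisers intertwined by an integer matrix of positive
determinant is an isometry of the intersection forms. -/
theorem form_comp_equiv (S₁ : Setting SL(2, ℤ) Ω₁) (S₂ : Setting SL(2, ℤ) Ω₂)
    (ht₁ : S₁.t = T) (ht₂ : S₂.t = T)
    (hneg₁ : ∀ ω : Ω₁, (-1 : SL(2, ℤ)) • ω = ω) (hneg₂ : ∀ ω : Ω₂, (-1 : SL(2, ℤ)) • ω = ω)
    (θ : MulAction.stabilizer SL(2, ℤ) S₁.ω₀ ≃* MulAction.stabilizer SL(2, ℤ) S₂.ω₀)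
    (α : Matrix (Fin 2) (Fin 2) ℤ) (hα : 0 < α.det)
    (hθ : ∀ γ : MulAction.stabilizer SL(2, ℤ) S₁.ω₀,
        α * ((γ : SL(2, ℤ)) : Matrix (Fin 2) (Fin 2) ℤ)
        = (((θ γ : MulAction.stabilizer SL(2, ℤ) S₂.ω₀) : SL(2, ℤ)) : Matrix (Fin 2) (Fin 2) ℤ) * α)
    (y₁ y₁' : S₁.parSub) (y₂ y₂' : S₂.parSub)
    (hy : ∀ γ : MulAction.stabilizer SL(2, ℤ) S₁.ω₀,
        (y₁ : Additive S₁.Γ →+ ℤ) (Additive.ofMul γ)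
          = (y₂ : Additive S₂.Γ →+ ℤ) (Additive.ofMul (θ γ)))
    (hy' : ∀ γ : MulAction.stabilizer SL(2, ℤ) S₁.ω₀,
        (y₁' : Additive S₁.Γ →+ ℤ) (Additive.ofMul γ)
          = (y₂' : Additive S₂.Γ →+ ℤ) (Additive.ofMul (θ γ))) :
    S₁.form y₁ y₁' = S₂.form y₂ y₂' := by
  obtain ⟨x₁, hx₁⟩ := S₁.J_surjective y₁
  obtain ⟨x₁', hx₁'⟩ := S₁.J_surjective y₁'
  obtain ⟨x₂, hx₂⟩ := S₂.J_surjective y₂
  obtain ⟨x₂', hx₂'⟩ := S₂.J_surjective y₂'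
  rw [← hx₁, ← hx₁', ← hx₂, ← hx₂']
  refine form_J_comp_equiv S₁ S₂ ht₁ ht₂ hneg₁ hneg₂ θ α hα hθ x₁ x₁' x₂ x₂' ?_ ?_
  · intro γ
    rw [ev_castQ_spl, ev_castQ_spl, hx₁, hx₂, hy γ]
  · intro γ
    rw [ev_castQ_spl, ev_castQ_spl, hx₁', hx₂', hy' γ]

end Fermat.Agent.S41.PDAssembly86
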