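/-
S41 / C8c [TRANSPOSE] (helper86), part 3: **`hadj₂` and `hTadj` in the concrete operators**.

For helper84's intersection forms `PDCore84.B` on `parabolicHoms ℤ (Gamma0 M) ℤ` and the operators
of `Hecke15` / `New63` (`α₁ = degRes`, `α₂ = degConj`, `β₁ = degCores`, `β₂ = degCores ∘ WOp`):

* `exists_mulEquiv_of_sq`, `exists_wEquiv` : the Atkin–Lehner automorphism of `Γ₀(N q)`;
* `B_WOp` : the Atkin–Lehner operator is an ISOMETRY of `B` at level `N q` (helper92's `B_conj` with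
  the integral matrix `alMat = [[q x, y],[N q, q]]` of determinant `q > 0`);
* `B_degConj_degCoresW` (= `hadj₂`) : `B' (α₂ φ) ψ' = B φ (β₂ ψ')`
  (from helper24's `B_degRes_degCores'` = `hadj₁`, `WOp_degRes`, `WOp_WOp`, `B_WOp`);
* `B_TX_selfAdjoint` (= `hTadj`) : `B (T_ℓ φ) ψ = B φ (T_ℓ ψ)` for every prime `ℓ ∤ N`
  (from `hadj₁`, `hadj₂` at the pair of levels `(N, N ℓ)`, `T_ℓ = β₁ α₂ = β₂ α₁` (helper63) and the
  antisymmetry of `B`).
-/
import Mathlib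
import Fermat.Agent.S41.PDComm92.BConj
import Fermat.Agent.S41.PDInst24.AdjDegen
import Fermat.Agent.S41.New63.BetaAlpha

set_option autoImplicit false
set_option linter.unusedSectionVars false

namespace Fermat.Agent.S41.PDAssembly86

open Matrix.SpecialLinearGroup CongruenceSubgroup ModularForm
open Fermat.Agent.S41.PDCore84 Fermat.Agent.S41.Hecke15 Fermat.Agent.S41.New63
open ModularCurve.Period
open scoped MatrixGroups

section Abstract

/-- conjugation by an element `w` which normalises `e(Γ)` and whose square is a central element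
times an element of `e(Γ)`, as an automorphism of `Γ`. -/
theorem exists_mulEquiv_of_sq {G Γ : Type*} [Group G] [Group Γ] (e : Γ →* G)
    (he : Function.Injective e) (w : G) (h1 : ∀ γ, ∃ c, w * e γ = e c * w)
    (z : G) (hz : ∀ g, z * g = g * z) (γ₀ : Γ) (hsq : w * w = z * e γ₀) :
    ∃ θ : Γ ≃* Γ, ∀ γ, w * e γ = e (θ γ) * w := by
  choose f hf using h1
  have hmul : ∀ a b, f (a * b) = f a * f b := by
    intro a b
    apply he
    have h : e (f (a * b)) * w = e (f a * f b) * w := by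
      rw [← hf, map_mul, ← mul_assoc, hf a, mul_assoc, hf b, ← mul_assoc, ← map_mul]
    exact mul_right_cancel h
  have hff : ∀ γ, f (f γ) = γ₀ * γ * γ₀⁻¹ := by
    intro γ
    apply he
    have h3 : w * w * e γ = e (f (f γ)) * (w * w) := by
      rw [mul_assoc, hf γ, ← mul_assoc, hf (f γ), mul_assoc]
    rw [hsq] at h3
    have h4 : z * (e γ₀ * e γ) = z * (e (f (f γ)) * e γ₀) := by
      rw [← mul_assoc, h3, ← mul_assoc, ← mul_assoc, hz]
    have h5 := mul_left_cancel h4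
    rw [map_mul, map_mul, h5]
    rw [mul_assoc, ← map_mul, mul_inv_cancel, map_one, mul_one]
  have hinj : Function.Injective f := by
    intro a b hab
    apply he
    have : w * e a = w * e b := by rw [hf a, hf b, hab]
    exact mul_left_cancel this
  have hsurj : Function.Surjective f := by
    intro γ
    refine ⟨f (γ₀⁻¹ * γ * γ₀), ?_⟩
    rw [hff]; group
  exact ⟨MulEquiv.ofBijective (MonoidHom.mk' f hmul) ⟨hinj, hsurj⟩, fun γ => hf γ⟩

end Abstract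


section Concrete

variable (N q : ℕ) [hqp : Fact q.Prime] (x y : ℤ) (hxy : (q : ℤ) * x - N * y = 1)

/-- the integral Atkin–Lehner matrix `[[q x, y],[N q, q]]`. -/
def alMat : Matrix (Fin 2) (Fin 2) ℤ := !![(q : ℤ) * x, y; (N : ℤ) * q, (q : ℤ)]

include hxy in
theorem alMat_det : (alMat N q x y).det = q := by
  rw [alMat, Matrix.det_fin_two_of]
  linear_combination (q : ℤ) * hxy

include hxy in
theorem alMat_det_pos : 0 < (alMat N q x y).det := by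
  rw [alMat_det N q x y hxy]
  exact_mod_cast hqp.out.pos

/-- the Atkin–Lehner automorphism of `Γ₀(N q)`. -/
theorem exists_wEquiv : ∃ θ : Gamma0 (N * q) ≃* Gamma0 (N * q),
    ∀ γ, wAL N q x y (q_ne_zero63 q) hxy * eGL63 (N * q) γ
      = eGL63 (N * q) (θ γ) * wAL N q x y (q_ne_zero63 q) hxy := by
  obtain ⟨γ₀, h10, hsq⟩ := wAL_sq N q x y (q_ne_zero63 q) hxy
  have hγ₀ : γ₀ ∈ Gamma0 (N * q) := by
    rw [mem_Gamma0_iff_dvd, h10]
    exact ⟨x + 1, by push_cast; ring⟩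
  exact exists_mulEquiv_of_sq (eGL63 (N * q)) (eGL63_injective _) _ (exists_wAL_conj N q x y hxy)
    _ (scalarGL_central (q : ℝ) (by exact_mod_cast (q_ne_zero63 q))) ⟨γ₀, hγ₀⟩ hsq

/-- from the identity in `GL₂(ℝ)` to the integral identity. -/
theorem alMat_mul_of_wAL_mul (γ c : SL(2, ℤ))
    (h : wAL N q x y (q_ne_zero63 q) hxy * mapGL ℝ γ
      = mapGL ℝ c * wAL N q x y (q_ne_zero63 q) hxy) :
    alMat N q x y * (γ : Matrix (Fin 2) (Fin 2) ℤ)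
      = (c : Matrix (Fin 2) (Fin 2) ℤ) * alMat N q x y := by
  ext i j
  have hij := congrArg (fun g : GL (Fin 2) ℝ => (g : Matrix (Fin 2) (Fin 2) ℝ) i j) h
  fin_cases i <;> fin_cases j <;>
    simp [alMat, Matrix.mul_apply, Fin.sum_univ_two] at hij ⊢ <;> exact_mod_cast hij


variable [NeZero N] [NeZero (N * q)]

theorem WOp_mem_parabolicHoms {z : Additive (Gamma0 (N * q)) →+ ℤ}
    (hz : z ∈ parabolicHoms ℤ (Gamma0 (N * q)) ℤ) :
    WOp N q x y hxy z ∈ parabolicHoms ℤ (Gamma0 (N * q)) ℤ :=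
  heckeHom_mem_parabolicHoms ℤ _ (wAL_isStable N q x y hxy) hz

/-- **the Atkin–Lehner operator is an isometry of the intersection form at level `N q`.** -/
theorem B_WOp (z z' : Additive (Gamma0 (N * q)) →+ ℤ)
    (hz : z ∈ parabolicHoms ℤ (Gamma0 (N * q)) ℤ) (hz' : z' ∈ parabolicHoms ℤ (Gamma0 (N * q)) ℤ)
    (hWz : WOp N q x y hxy z ∈ parabolicHoms ℤ (Gamma0 (N * q)) ℤ)
    (hWz' : WOp N q x y hxy z' ∈ parabolicHoms ℤ (Gamma0 (N * q)) ℤ) :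
    B (PDInst51.neg_one_mem_Gamma0_51 (N * q)) ⟨WOp N q x y hxy z, hWz⟩ ⟨WOp N q x y hxy z', hWz'⟩
      = B (PDInst51.neg_one_mem_Gamma0_51 (N * q)) ⟨z, hz⟩ ⟨z', hz'⟩ := by
  obtain ⟨θ, hθ⟩ := exists_wEquiv N q x y hxy
  refine PDComm92.B_conj (PDInst51.neg_one_mem_Gamma0_51 (N * q))
    (PDInst51.neg_one_mem_Gamma0_51 (N * q)) θ (alMat N q x y) (alMat_det_pos N q x y hxy)
    (fun γ => alMat_mul_of_wAL_mul N q x y hxy _ _ (hθ γ)) _ _ _ _ ?_ ?_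
  · intro γ
    exact WOp_apply N q x y hxy z γ (θ γ) (hθ γ)
  · intro γ
    exact WOp_apply N q x y hxy z' γ (θ γ) (hθ γ)


open Fermat.Agent.S41.PDInst24 in
/-- **(ADJ), i = 2, concrete** (`hadj₂`): `degConj` and `degCores ∘ WOp` are adjoint for the
intersection forms. -/
theorem B_degConj_degCoresW (hN : N ≠ 0) (hqN : ¬ q ∣ N)
    (φ : Additive (Gamma0 N) →+ ℤ) (hφ : φ ∈ parabolicHoms ℤ (Gamma0 N) ℤ)
    (ψ' : Additive (Gamma0 (N * q)) →+ ℤ) (hψ' : ψ' ∈ parabolicHoms ℤ (Gamma0 (N * q)) ℤ) :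
    B (PDInst51.neg_one_mem_Gamma0_51 (N * q))
        ⟨degConj (q_pos63 q) ℤ φ, degConj_mem_parabolicHoms ℤ (q_pos63 q) hφ⟩ ⟨ψ', hψ'⟩ =
      B (PDInst51.neg_one_mem_Gamma0_51 N) ⟨φ, hφ⟩
        ⟨degCores N q x y hxy hN hqN (WOp N q x y hxy ψ'),
          degCores_mem_parabolicHoms N q x y hxy hN hqN
            (WOp_mem_parabolicHoms N q x y hxy hψ')⟩ := by
  have hres : Hecke15.degRes (Dvd.intro q rfl) ℤ φ ∈ parabolicHoms ℤ (Gamma0 (N * q)) ℤ :=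
    degRes_mem_parabolicHoms ℤ (Dvd.intro q rfl) hφ
  have hWψ := WOp_mem_parabolicHoms N q x y hxy hψ'
  have h1 : (⟨degConj (q_pos63 q) ℤ φ, degConj_mem_parabolicHoms ℤ (q_pos63 q) hφ⟩ :
      parabolicHoms ℤ (Gamma0 (N * q)) ℤ)
      = ⟨WOp N q x y hxy (Hecke15.degRes (Dvd.intro q rfl) ℤ φ),
          WOp_mem_parabolicHoms N q x y hxy hres⟩ :=
    Subtype.ext (WOp_degRes N q x y hxy φ).symm
  have h2 : (⟨ψ', hψ'⟩ : parabolicHoms ℤ (Gamma0 (N * q)) ℤ)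
      = ⟨WOp N q x y hxy (WOp N q x y hxy ψ'), WOp_mem_parabolicHoms N q x y hxy hWψ⟩ :=
    Subtype.ext (WOp_WOp N q x y hxy ψ').symm
  rw [h1, h2, B_WOp N q x y hxy _ _ hres hWψ]
  exact B_degRes_degCores' N q x y hxy hN hqN φ hφ _ hWψ

end Concrete

section SelfAdjoint

open Fermat.Agent.S41.PDInst24

variable {N : ℕ} [NeZero N]

/-- **`T_ℓ` (`ℓ ∤ N`) is self-adjoint for the intersection form at level `N`** (`hTadj`). -/
theorem B_TX_selfAdjoint {ℓ : ℕ} (hℓ : ℓ.Prime) (hℓN : ¬ ℓ ∣ N)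
    (φ ψ : Additive (Gamma0 N) →+ ℤ) (hφ : φ ∈ parabolicHoms ℤ (Gamma0 N) ℤ)
    (hψ : ψ ∈ parabolicHoms ℤ (Gamma0 N) ℤ) :
    B (PDInst51.neg_one_mem_Gamma0_51 N) ⟨TX N ℤ ℓ φ, TX_mem_parabolicHoms ℤ ℓ hφ⟩ ⟨ψ, hψ⟩
      = B (PDInst51.neg_one_mem_Gamma0_51 N) ⟨φ, hφ⟩
          ⟨TX N ℤ ℓ ψ, TX_mem_parabolicHoms ℤ ℓ hψ⟩ := by
  have : Fact ℓ.Prime := ⟨hℓ⟩
  have hN : N ≠ 0 := NeZero.ne N
  have : NeZero (N * ℓ) := ⟨Nat.mul_ne_zero hN hℓ.ne_zero⟩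
  obtain ⟨x, y, hxy⟩ := exists_bezout63 N ℓ hℓ hℓN
  -- the four degeneracy maps at `(N, N ℓ)`
  have hα₁φ := degRes_mem_parabolicHoms ℤ (Dvd.intro ℓ rfl) hφ
  have hα₁ψ := degRes_mem_parabolicHoms ℤ (Dvd.intro ℓ rfl) hψ
  have hα₂φ := degConj_mem_parabolicHoms ℤ (q_pos63 ℓ) hφ
  have e1 : (⟨TX N ℤ ℓ φ, TX_mem_parabolicHoms ℤ ℓ hφ⟩ : parabolicHoms ℤ (Gamma0 N) ℤ)
      = ⟨degCores N ℓ x y hxy hN hℓN (degConj (q_pos63 ℓ) ℤ φ),
          degCores_mem_parabolicHoms N ℓ x y hxy hN hℓN hα₂φ⟩ :=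
    Subtype.ext (degCores_degConj N ℓ x y hxy hN hℓN φ).symm
  have e2 : (⟨TX N ℤ ℓ ψ, TX_mem_parabolicHoms ℤ ℓ hψ⟩ : parabolicHoms ℤ (Gamma0 N) ℤ)
      = ⟨degCores N ℓ x y hxy hN hℓN (WOp N ℓ x y hxy (Hecke15.degRes (Dvd.intro ℓ rfl) ℤ ψ)),
          degCores_mem_parabolicHoms N ℓ x y hxy hN hℓN
            (WOp_mem_parabolicHoms N ℓ x y hxy hα₁ψ)⟩ :=
    Subtype.ext (degCores_WOp_degRes N ℓ x y hxy hN hℓN ψ).symm
  rw [e1, e2, B_antisymm, ← B_degRes_degCores' N ℓ x y hxy hN hℓN ψ hψ _ hα₂φ, ← B_antisymm,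
    B_degConj_degCoresW N ℓ x y hxy hN hℓN φ hφ _ hα₁ψ]

end SelfAdjoint

end Fermat.Agent.S41.PDAssembly86
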